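/-
S48lib / LeadGlue / S48Dry  (lead)

**End-to-end plumbing of S48**: the frozen conclusion from the two remaining inputs
* `hES`  : an Eichler–Shimura datum for `F₁(M)` at every place over every `p ∤ M`, for the levels
           `M` with `4 ∣ M` or `9 ∣ M`  (blocks P5–P7),
* `hEis` : `DS.EisQStmt`  (block Eis1).
-/
import Fermat.Agent.S48lib.DS.Top4
import Fermat.Agent.S48lib.X1.Gal.W2Final
import Fermat.Agent.S48lib.X1.Gal.UnramES

set_option autoImplicit false

open CongruenceSubgroup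
open scoped MatrixGroups

namespace Fermat.Agent.S48lib.LeadGlue

open Fermat.Agent.S48lib Fermat.Agent.S48lib.X1

local notation "Qb" => AlgebraicClosure ℚ
local notation "GQ" => (AlgebraicClosure ℚ ≃ₐ[ℚ] AlgebraicClosure ℚ)

/-- the geometric input: Eichler–Shimura data at all good places, for the levels divisible by
`4` or `9`. -/
def ESStmt : Prop :=
  ∀ (M : ℕ) [NeZero M], (4 ∣ M ∨ 9 ∣ M) → ∀ (p : ℕ) [Fact p.Prime] [NeZero p], ¬ p ∣ M →
    ∀ B : ValuationSubring Qb, B.LiesOverPrime p → Gal.ESDataAt M p B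

theorem w2Gal_of_esStmt (hES : ESStmt) (M : ℕ) [NeZero M] : Iface.W2Gal M :=
  Gal.w2Gal_of_esNative_dvd
    (fun M' _ h49 ℓ _ _ => Gal.esNative_of_esData
      (fun p _ _ hpd B hB => hES M' h49 p (fun h => hpd (Dvd.dvd.mul_right h ℓ)) B hB)) M

theorem s48_of_esStmt (hES : ESStmt) (hEis : DS.EisQStmt)
    (N : ℕ) [NeZero N] (ε : DirichletCharacter ℂ N) (f : CuspForm (Gamma1 N) 1)
    (hf₁ : ModularFormClass.qCoeff f 1 = 1)
    (hT : ∀ p : ℕ, p.Prime → ¬ p ∣ N → ∀ n : ℕ,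
        ModularFormClass.qCoeff f (p * n) +
            ε (p : ZMod N) * (if p ∣ n then ModularFormClass.qCoeff f (n / p) else 0) =
          ModularFormClass.qCoeff f p * ModularFormClass.qCoeff f n) :
    ∃ ρ : GQ →* GL (Fin 2) ℂ, GaloisFactorsThroughFiniteLevel ρ ∧
      (Deformation.matrixRepresentation ρ).IsIrreducible ∧
      ∀ p : ℕ, p.Prime → ¬ p ∣ N →
        ∀ A : ValuationSubring (AlgebraicClosure ℚ), A.LiesOverPrime p →
          (∀ σ ∈ A.inertiaSubgroupIn ℚ, ρ σ = 1) ∧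
          ∀ σ : GQ, A.IsFrobeniusAt σ p →
            ((ρ σ : GL (Fin 2) ℂ) : Matrix (Fin 2) (Fin 2) ℂ).trace = ModularFormClass.qCoeff f p ∧
            ((ρ σ : GL (Fin 2) ℂ) : Matrix (Fin 2) (Fin 2) ℂ).det = ε (p : ZMod N) :=
  DS.s48_of_w2_dvd (fun M _ _ => w2Gal_of_esStmt hES M) hEis N ε f hf₁ hT

end Fermat.Agent.S48lib.LeadGlue
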